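import Fermat.Statements.S02

set_option autoImplicit false
open FreyPackage

namespace Fermat.Agent.S02

theorem ofCoprimeOddEven {a b c : ℤ} (ha : a ≠ 0) (hb : b ≠ 0) (hc : c ≠ 0)
    {p : ℕ} (pp : p.Prime) (hp5 : 5 ≤ p) (H : a ^ p + b ^ p = c ^ p)
    (hab : gcd a b = 1) (haodd : ¬ (2 : ℤ) ∣ a) (hbeven : (2 : ℤ) ∣ b) :
    Nonempty FreyPackage := by
  have p_odd : Odd p := pp.odd_of_ne_two (by omega)
  have hb2 : ((b : ℤ) : ZMod 2) = 0 := (ZMod.intCast_zmod_eq_zero_iff_dvd b 2).2 hbeven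
  have h4 : a % 4 = 1 ∨ a % 4 = 3 := by
    have : ¬ (a % 2 = 0) := fun h => haodd (Int.dvd_of_emod_eq_zero h)
    omega
  rcases h4 with h1 | h3
  · refine ⟨⟨-a, -b, -c, neg_ne_zero.2 ha, neg_ne_zero.2 hb, neg_ne_zero.2 hc, p, pp, hp5,
      ?_, ?_, ?_, ?_⟩⟩
    · rw [p_odd.neg_pow, p_odd.neg_pow, p_odd.neg_pow, ← H]; ring
    · rw [neg_gcd, gcd_neg]; exact hab
    · have : ((-a : ℤ) : ZMod 4) = ((3 : ℤ) : ZMod 4) := by
        rw [ZMod.intCast_eq_intCast_iff_dvd_sub]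
        omega
      simpa using this
    · simp [hb2]
  · refine ⟨⟨a, b, c, ha, hb, hc, p, pp, hp5, H, hab, ?_, hb2⟩⟩
    have : ((a : ℤ) : ZMod 4) = ((3 : ℤ) : ZMod 4) := by
      rw [ZMod.intCast_eq_intCast_iff_dvd_sub]
      omega
    simpa using this

theorem ofCoprime {a b c : ℤ} (ha : a ≠ 0) (hb : b ≠ 0) (hc : c ≠ 0)
    {p : ℕ} (pp : p.Prime) (hp5 : 5 ≤ p) (H : a ^ p + b ^ p = c ^ p)
    (hab : gcd a b = 1) : Nonempty FreyPackage := by
  have p_odd : Odd p := pp.odd_of_ne_two (by omega)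
  have hp0 : p ≠ 0 := pp.ne_zero
  have hnot : ¬ ((2 : ℤ) ∣ a ∧ (2 : ℤ) ∣ b) := by
    rintro ⟨h1, h2⟩
    have h := dvd_gcd h1 h2
    rw [hab] at h
    exact absurd h (by decide)
  by_cases hb2 : (2 : ℤ) ∣ b
  · exact ofCoprimeOddEven ha hb hc pp hp5 H hab (fun h => hnot ⟨h, hb2⟩) hb2
  · by_cases ha2 : (2 : ℤ) ∣ a
    · refine ofCoprimeOddEven hb ha hc pp hp5 (by rw [add_comm]; exact H) ?_ hb2 ha2
      rw [gcd_comm]; exact hab
    · have hao : Odd a := by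
        rcases Int.even_or_odd a with h | h
        · exact absurd h.two_dvd ha2
        · exact h
      have hbo : Odd b := by
        rcases Int.even_or_odd b with h | h
        · exact absurd h.two_dvd hb2
        · exact h
      have hce : Even c := by
        have h1 : Even (c ^ p) := by
          rw [← H]
          exact (hao.pow).add_odd (hbo.pow)
        exact ((Int.even_pow' hp0).1 h1)
      have H' : a ^ p + (-c) ^ p = (-b) ^ p := by
        rw [p_odd.neg_pow, p_odd.neg_pow, ← H]; ring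
      refine ofCoprimeOddEven ha (neg_ne_zero.2 hc) (neg_ne_zero.2 hb) pp hp5 H' ?_ ha2
        (by rw [dvd_neg]; exact hce.two_dvd)
      rw [gcd_neg, ← gcdab_eq_gcdac pp.pos H]; exact hab

theorem result (a b c : ℤ) (ha : a ≠ 0) (hb : b ≠ 0) (hc : c ≠ 0) (p : ℕ) (pp : p.Prime) (hp5 : 5 ≤ p) (H : a ^ p + b ^ p = c ^ p) : Nonempty FreyPackage := by
  have hp0 : p ≠ 0 := pp.ne_zero
  set d : ℤ := gcd a b with hd
  have hd0 : d ≠ 0 := fun h => ha ((gcd_eq_zero_iff a b).1 h).1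
  obtain ⟨a', ha'⟩ : d ∣ a := gcd_dvd_left a b
  obtain ⟨b', hb'⟩ : d ∣ b := gcd_dvd_right a b
  have hdc : d ∣ c := by
    rw [← Int.pow_dvd_pow_iff hp0, ← H]
    exact dvd_add (pow_dvd_pow_of_dvd (gcd_dvd_left a b) p)
      (pow_dvd_pow_of_dvd (gcd_dvd_right a b) p)
  obtain ⟨c', hc'⟩ := hdc
  have ha'0 : a' ≠ 0 := by rintro rfl; exact ha (by rw [ha', mul_zero])
  have hb'0 : b' ≠ 0 := by rintro rfl; exact hb (by rw [hb', mul_zero])
  have hc'0 : c' ≠ 0 := by rintro rfl; exact hc (by rw [hc', mul_zero])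
  have H' : a' ^ p + b' ^ p = c' ^ p := by
    have h1 : d ^ p * (a' ^ p + b' ^ p) = d ^ p * c' ^ p := by
      rw [mul_add, ← mul_pow, ← mul_pow, ← mul_pow, ← ha', ← hb', ← hc']; exact H
    exact mul_left_cancel₀ (pow_ne_zero p hd0) h1
  have hcop : gcd a' b' = 1 := by
    have h1 : gcd a b = normalize d * gcd a' b' := by
      conv_lhs => rw [ha', hb']
      exact gcd_mul_left d a' b'
    have h2 : normalize d = d := by rw [hd]; exact normalize_gcd a b
    rw [h2, ← hd] at h1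
    have h3 : d * 1 = d * gcd a' b' := by rw [mul_one]; exact h1
    exact (mul_left_cancel₀ hd0 h3).symm
  exact ofCoprime ha'0 hb'0 hc'0 pp hp5 H' hcop

end Fermat.Agent.S02
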