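import Fermat.Statements.S05
import Fermat.Agent.S05.Main
import Fermat.Agent.S05.Ord
import Fermat.Agent.S05.Inertia
import Fermat.Agent.S05.Action
import Fermat.Agent.S05.Frey

set_option autoImplicit false
open WeierstrassCurve WeierstrassCurve.Affine WeierstrassCurve.Affine.Point
open CuspForm ModularFormClass UpperHalfPlane
open FreyPackage

namespace Fermat.Agent.S05

local notation "K" => AlgebraicClosure ℚ

private theorem mul_lt_one_aux {Γ : Type*} [LinearOrderedCommGroupWithZero Γ] {a b : Γ}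
    (ha : a ≤ 1) (hb : b < 1) : a * b < 1 :=
  lt_of_le_of_lt (by simpa using mul_le_mul_left ha b) hb

theorem result (P : FreyPackage) {q : ℕ} (hq : q.Prime) (hq2 : q ≠ 2) (hqp : q ≠ P.p) : P.GaloisRepUnramifiedAt q := by
  intro A hA σ hσ x
  obtain ⟨r0, nβ, nb, n0, hr0, -, hβ, hb, hcase⟩ := frey_local_data P hq hq2
  obtain ⟨O⟩ := exists_ordFun A hq hA
  apply Subtype.ext
  have hx : P.p • x.1 = 0 := by
    have h := x.2
    rw [Submodule.mem_torsionBy_iff] at h
    rwa [natCast_zsmul] at h
  -- valuations of the constants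
  have hq2' : ¬ q ∣ 2 := fun h => hq2 ((Nat.prime_dvd_prime_iff_eq hq Nat.prime_two).mp h)
  have h2 : A.valuation (2 : K) = 1 := by
    have := valuation_natCast_eq_one (A := A) hq hA hq2'
    simpa using this
  have hqp' : ¬ q ∣ P.p := fun h => hqp ((Nat.prime_dvd_prime_iff_eq hq P.pp).mp h)
  have hpA : A.valuation ((P.p : ℕ) : K) = 1 := valuation_natCast_eq_one hq hA hqp'
  have h16 : A.valuation (16 : K) = 1 := by
    have : (16 : K) = 2 ^ 4 := by norm_num
    rw [this, map_pow, h2, one_pow]
  have h256 : A.valuation (256 : K) = 1 := by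
    have : (256 : K) = 2 ^ 8 := by norm_num
    rw [this, map_pow, h2, one_pow]
  have hx0 : twoTors (P.freyCurve⁄K) (algebraMap ℚ K r0) = 0 := by
    rw [twoTors_baseChange, hr0, _root_.map_zero]
  have hβK : beta (P.freyCurve⁄K) (algebraMap ℚ K r0) = (nβ : K) / 16 := by
    rw [beta_baseChange, hβ]; simp
  have hbK : b2' (P.freyCurve⁄K) (algebraMap ℚ K r0) = (nb : K) := by
    rw [b2'_baseChange, hb]; simp
  have hb2v : A.valuation (b2' (P.freyCurve⁄K) (algebraMap ℚ K r0)) ≤ 1 := by
    rw [hbK]; exact valuation_intCast_le_one nb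
  have hβv : A.valuation (beta (P.freyCurve⁄K) (algebraMap ℚ K r0)) ≤ 1 := by
    rw [hβK, map_div₀, h16, div_one]; exact valuation_intCast_le_one nβ
  have hσA : ∀ a : K, A.valuation a ≤ 1 → A.valuation ((σ : K →+* K) a - a) < 1 :=
    fun a ha => inertia_valuation_sub_lt hσ ha
  have hτ : ∀ Q : (P.freyCurve⁄K).Point, Q ≠ 0 →
      smulAddHom P.freyCurve σ Q ≠ 0 ∧
        xi (P.freyCurve⁄K) (algebraMap ℚ K r0) (smulAddHom P.freyCurve σ Q) =
          (σ : K →+* K) (xi (P.freyCurve⁄K) (algebraMap ℚ K r0) Q) ∧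
        eta (P.freyCurve⁄K) (smulAddHom P.freyCurve σ Q) =
          (σ : K →+* K) (eta (P.freyCurve⁄K) Q) := by
    intro Q hQ
    exact ⟨smul_ne_zero_of_ne_zero _ σ hQ, xi_smul _ σ r0 Q, eta_smul _ σ Q⟩
  have key := tau_eq_self (W := P.freyCurve⁄K) (x0 := algebraMap ℚ K r0) hx0 A O hb2v hβv h2
    P.pp P.hp5 hpA (σ : K →+* K) (smulAddHom P.freyCurve σ) hσA hτ ?_ hx
  · exact key
  · rcases hcase with ⟨nΔ, hΔ, hnΔ⟩ | ⟨hnb, e, m, he, hm, hnβ⟩
    · left
      have hΔK : (P.freyCurve⁄K).Δ = (nΔ : K) / 256 := by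
        rw [delta_baseChange, hΔ]; simp
      have hΔv : A.valuation ((P.freyCurve⁄K).Δ) = 1 := by
        rw [hΔK, map_div₀, h256, div_one]
        exact valuation_intCast_eq_one hq hA hnΔ
      intro t ht ⟨h1, h2'⟩
      have hd := delta_eq' (W := P.freyCurve⁄K) hx0 t
      set β := beta (P.freyCurve⁄K) (algebraMap ℚ K r0) with hβdef
      set b := b2' (P.freyCurve⁄K) (algebraMap ℚ K r0) with hbdef
      set f := fxi (P.freyCurve⁄K) (algebraMap ℚ K r0) t with hfdef
      have h8 : A.valuation (8 : K) ≤ 1 := by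
        have : (8 : K) = ((8 : ℤ) : K) := by norm_num
        rw [this]; exact valuation_intCast_le_one 8
      have h4 : A.valuation (4 : K) ≤ 1 := by
        have : (4 : K) = ((4 : ℤ) : K) := by norm_num
        rw [this]; exact valuation_intCast_le_one 4
      have h64 : A.valuation (64 : K) ≤ 1 := by
        have : (64 : K) = ((64 : ℤ) : K) := by norm_num
        rw [this]; exact valuation_intCast_le_one 64
      have e1 : A.valuation (b - 8 * t) ≤ 1 := by
        refine (A.valuation.map_sub _ _).trans (max_le hb2v ?_)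
        rw [map_mul]; exact mul_le_one' h8 ht
      have e2 : A.valuation ((4 * t + b) * (t ^ 2 - β)) < 1 := by
        rw [map_mul]
        have : A.valuation (4 * t + b) ≤ 1 := by
          refine (A.valuation.map_add _ _).trans (max_le ?_ hb2v)
          rw [map_mul]; exact mul_le_one' h4 ht
        exact mul_lt_one_aux this h1
      have e3 : A.valuation (f - (4 * t + b) * (t ^ 2 - β)) < 1 :=
        (A.valuation.map_sub _ _).trans_lt (max_lt h2' e2)
      have e4 : A.valuation (β * (b - 8 * t) * (f - (4 * t + b) * (t ^ 2 - β))) < 1 := by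
        rw [map_mul, map_mul]
        exact mul_lt_one_aux (mul_le_one' hβv e1) e3
      have e5 : A.valuation (64 * β ^ 2 * (t ^ 2 - β)) < 1 := by
        rw [map_mul, map_mul, map_pow]
        exact mul_lt_one_aux (mul_le_one' h64 (pow_le_one' hβv 2)) h1
      have : A.valuation ((P.freyCurve⁄K).Δ) < 1 := by
        rw [hd]; exact (A.valuation.map_add _ _).trans_lt (max_lt e4 e5)
      rw [hΔv] at this
      exact lt_irrefl _ this
    · right
      have hqv : A.valuation ((q : ℕ) : K) < 1 := valuation_prime_lt_one hA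
      have hmv : A.valuation ((m : ℤ) : K) = 1 := valuation_intCast_eq_one hq hA hm
      have hβK' : beta (P.freyCurve⁄K) (algebraMap ℚ K r0) =
          ((q : ℕ) : K) ^ (P.p * e) * ((m : K) / 16) := by
        rw [hβK, hnβ]; push_cast; ring
      refine ⟨?_, ?_, (q : K), (m : K) / 16, e, ?_, ?_, ?_, hβK'⟩
      · rw [hβK', map_mul, map_pow, map_div₀, hmv, h16, div_one, mul_one]
        exact pow_lt_one₀ zero_le' hqv (Nat.mul_ne_zero P.hp0 he.ne')
      · rw [hbK]; exact valuation_intCast_eq_one hq hA hnb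
      · simp
      · exact_mod_cast hq.ne_zero
      · rw [map_div₀, hmv, h16, div_one]

end Fermat.Agent.S05
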