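import Fermat.Statements.S07
import Fermat.Prelude.Thm_ModularForm_sturm_bound_Gamma0
import Fermat.Prelude.Thm_CongruenceSubgroup_one_mem_strictPeriods_Gamma0

set_option autoImplicit false
open WeierstrassCurve WeierstrassCurve.Affine WeierstrassCurve.Affine.Point
open CuspForm ModularFormClass UpperHalfPlane
open ModularForm

namespace Fermat.Agent.S07

/-- A cusp form regarded as a modular form. -/
def toModularForm {Γ : Subgroup (GL (Fin 2) ℝ)} {k : ℤ} (f : CuspForm Γ k) : ModularForm Γ k where
  toSlashInvariantForm := f.toSlashInvariantForm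
  holo' := f.holo'
  bdd_at_cusps' := fun hc => ModularFormClass.bdd_at_cusps f hc

/-- The index of `Γ₀(2)` in `SL(2, ℤ)` is at most `4` (cosets are determined by the first
column modulo `2`). -/
theorem index_Gamma0_two_le : (CongruenceSubgroup.Gamma0 2).index ≤ 4 := by
  classical
  let φ : (Matrix.SpecialLinearGroup (Fin 2) ℤ) ⧸ (CongruenceSubgroup.Gamma0 2) → ZMod 2 × ZMod 2 :=
    fun q => (((q.out 0 0 : ℤ) : ZMod 2), ((q.out 1 0 : ℤ) : ZMod 2))
  have hφ : Function.Injective φ := by
    intro q q' h
    have h1 : ((q.out 0 0 : ℤ) : ZMod 2) = ((q'.out 0 0 : ℤ) : ZMod 2) := congrArg Prod.fst h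
    have h2 : ((q.out 1 0 : ℤ) : ZMod 2) = ((q'.out 1 0 : ℤ) : ZMod 2) := congrArg Prod.snd h
    have hmem : (q.out)⁻¹ * q'.out ∈ CongruenceSubgroup.Gamma0 2 := by
      rw [CongruenceSubgroup.Gamma0_mem]
      rw [Matrix.SpecialLinearGroup.coe_mul, Matrix.SpecialLinearGroup.coe_inv,
        Matrix.adjugate_fin_two, Matrix.mul_apply, Fin.sum_univ_two]
      simp only [Matrix.of_apply, Matrix.cons_val_zero, Matrix.cons_val_one]
      push_cast
      rw [← h1, ← h2]
      ring
    have := QuotientGroup.eq.mpr hmem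
    rwa [QuotientGroup.out_eq', QuotientGroup.out_eq'] at this
  have hcard := Nat.card_le_card_of_injective φ hφ
  have h4 : Nat.card (ZMod 2 × ZMod 2) = 4 := by
    simp [Nat.card_eq_fintype_card]
  rw [h4] at hcard
  exact hcard

theorem result (f : CuspForm (CongruenceSubgroup.Gamma0 2) 2) : f = 0 := by
  have hF : toModularForm f = 0 := by
    apply ModularForm.sturm_bound_Gamma0 2
    intro n hn
    have hidx := index_Gamma0_two_le
    have hn0 : n = 0 := by omega
    subst hn0
    exact CuspFormClass.qExpansion_coeff_zero f one_pos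
      (CongruenceSubgroup.one_mem_strictPeriods_Gamma0 2)
  ext z
  have h := DFunLike.congr_fun hF z
  exact h

end Fermat.Agent.S07
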