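import Fermat.Statements.S08
import Fermat.Prelude.Thm_ModularForm_sturm_bound_Gamma0
import Fermat.Prelude.Thm_CongruenceSubgroup_one_mem_strictPeriods_Gamma0

set_option autoImplicit false
open WeierstrassCurve WeierstrassCurve.Affine WeierstrassCurve.Affine.Point
open CuspForm ModularFormClass UpperHalfPlane
open ModularForm

namespace Fermat.Agent.S08

/-- A cusp form regarded as a modular form. -/
def toModularForm {Γ : Subgroup (GL (Fin 2) ℝ)} {k : ℤ} (f : CuspForm Γ k) : ModularForm Γ k where
  toSlashInvariantForm := f.toSlashInvariantForm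
  holo' := f.holo'
  bdd_at_cusps' := fun hc => ModularFormClass.bdd_at_cusps f hc

/-- `Γ₀(1)` is all of `SL(2, ℤ)`, so its index is `1`. -/
theorem index_Gamma0_one : (CongruenceSubgroup.Gamma0 1).index = 1 := by
  have htop : CongruenceSubgroup.Gamma0 1 = ⊤ := by
    ext g
    simp only [CongruenceSubgroup.Gamma0_mem, Subgroup.mem_top, iff_true]
    exact Subsingleton.elim _ _
  rw [htop, Subgroup.index_top]

theorem result (f : CuspForm (CongruenceSubgroup.Gamma0 1) 2) : f = 0 := by
  have hF : toModularForm f = 0 := by
    apply ModularForm.sturm_bound_Gamma0 1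
    intro n hn
    have hidx := index_Gamma0_one
    have hn0 : n = 0 := by omega
    subst hn0
    exact CuspFormClass.qExpansion_coeff_zero f one_pos
      (CongruenceSubgroup.one_mem_strictPeriods_Gamma0 1)
  ext z
  have h := DFunLike.congr_fun hF z
  exact h

end Fermat.Agent.S08
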