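import Fermat.Statements.S10
import Fermat.Agent.S10.FLT5
import Fermat.Agent.S10.FLT7
import Fermat.Agent.S10.FLT13

set_option autoImplicit false
open WeierstrassCurve WeierstrassCurve.Affine WeierstrassCurve.Affine.Point
open CuspForm ModularFormClass UpperHalfPlane
open FreyPackage

namespace Fermat.Agent.S10

theorem result (P : FreyPackage) (hp : P.p = 5 ∨ P.p = 7 ∨ P.p = 13) : ¬ HasGaloisStableCofixedLine (K := AlgebraicClosure ℚ) ℚ P.freyCurve P.p := by
  exfalso
  have key : ∀ n : ℕ, FermatLastTheoremFor n → P.p = n → False := fun n hn h =>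
    (fermatLastTheoremFor_iff_int.mp hn) P.a P.b P.c P.ha0 P.hb0 P.hc0 (h ▸ P.hFLT)
  rcases hp with h | h | h
  · exact key 5 flt_five h
  · exact key 7 flt_seven h
  · exact key 13 flt_thirteen h

end Fermat.Agent.S10
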