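import Fermat.Statements.S11
import Fermat.Agent.S10.FLT11

set_option autoImplicit false
open WeierstrassCurve WeierstrassCurve.Affine WeierstrassCurve.Affine.Point
open CuspForm ModularFormClass UpperHalfPlane
open FreyPackage

namespace Fermat.Agent.S11

theorem result (P : FreyPackage) (hp : P.p = 11) : ¬ HasGaloisStableCofixedLine (K := AlgebraicClosure ℚ) ℚ P.freyCurve P.p := by
  exfalso
  have hF := P.hFLT
  rw [hp] at hF
  exact fermatLastTheoremFor_iff_int.mp Fermat.Agent.S10.flt_eleven P.a P.b P.c P.ha0 P.hb0 P.hc0 hF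

end Fermat.Agent.S11
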