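-- Statement S21 (Eichler–Shimura): assembly of ES (the period pairing is injective with
-- parabolic range), COH (dimension bound for the parabolic homomorphisms) and the lower bound
-- for the dimension of the weight two cusp forms (S20, free module route).
import Fermat.Statements.S21
import Fermat.Agent.S21.Dim
import Fermat.Agent.S20.LowerBound

set_option autoImplicit false
open ModularCurve

namespace Fermat.Agent.S21

theorem result (N : ℕ) [NeZero N] :
    Function.Injective (ModularCurve.periodHomPair N)
      ∧ LinearMap.range (ModularCurve.periodHomPair N)
          = ModularCurve.Period.parabolicHoms ℂ (CongruenceSubgroup.Gamma0 N) ℂ :=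
  eichlerShimura_of_genusFormula_le N (Fermat.Agent.S20.genusFormula_le_finrank_cuspForm_two N)

end Fermat.Agent.S21
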