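import Fermat.Statements.S16
import Fermat.Agent.S16.Defs
import Fermat.Agent.S16.Alg
import Fermat.Agent.S16.Dual
import Fermat.Agent.S16.Upper
import Fermat.Agent.S16.Lower

set_option autoImplicit false
open ModularCurve CuspForm
open ModularCurve

namespace Fermat.Agent.S16

theorem result
    (p : ℕ) [Fact p.Prime] :
    Nat.card (↥(heckeLatticeAlgebra p ∅) ⧸
        Ideal.map ((latticeRestrictHom p ∅).toRingHom.comp (heckeEvalForms p 2))
          (eisensteinIdeal p)) =
      eisensteinNumerator p := by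
  refine card_quot_eq p _ (Upper.eisensteinNumerator_pos p) (fun k => ⟨lower_bound p k, ?_⟩)
  intro hk
  -- the ideal `{k : ℤ | k ∈ JL}` is principal, generated by some `m`
  let I : Ideal ℤ := Ideal.comap (algebraMap ℤ ↥(heckeLatticeAlgebra p ∅)) (JL p)
  obtain ⟨m, hm⟩ : ∃ m : ℤ, I = Ideal.span {m} :=
    ⟨_, (Submodule.IsPrincipal.span_singleton_generator I).symm⟩
  have hmem : ∀ j : ℤ, algebraMap ℤ ↥(heckeLatticeAlgebra p ∅) j ∈ JL p ↔ m ∣ j := by
    intro j
    have : j ∈ I ↔ m ∣ j := by rw [hm, Ideal.mem_span_singleton]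
    exact this
  obtain ⟨g, hg⟩ := exists_form_of_int_mem p m (fun j hj => (hmem j).1 hj)
  have hdiv := upper_bound p m g hg
  obtain ⟨c, hc⟩ := hk
  have h1 : algebraMap ℤ ↥(heckeLatticeAlgebra p ∅) (eisensteinNumerator p : ℤ) ∈ JL p :=
    (hmem _).2 hdiv
  rw [hc, map_mul]
  exact Ideal.mul_mem_right _ _ h1

end Fermat.Agent.S16
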