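-- Statement S20: `dim S₂(Γ₀(N))` equals the classical genus formula for `X₀(N)`.
import Fermat.Statements.S20
import Fermat.Agent.S20.LowerBound
import Fermat.Agent.S21.Dim

set_option autoImplicit false
open CuspForm

namespace Fermat.Agent.S20

theorem result (N : ℕ) [NeZero N] :
    (Module.finrank ℂ (CuspForm (CongruenceSubgroup.Gamma0 N) 2) : ℚ) = ModularCurve.genusFormula N :=
  Fermat.Agent.S21.finrank_cuspForm_two_eq_of_genusFormula_le N
    (genusFormula_le_finrank_cuspForm_two N)

end Fermat.Agent.S20
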