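import Fermat.Statements.S22
import Fermat.Agent.S22.Key
import Fermat.Agent.S22.FinalAlgebra

set_option autoImplicit false
open CuspForm

namespace Fermat.Agent.S22

/-- The Hecke algebra acting on `S_k(Γ₀(N))` is a finitely generated `ℤ`-module. -/
theorem result (N : ℕ) [NeZero N] (k : ℤ) (S : Set ℕ) :
    Module.Finite ℤ (CuspForm.heckeAlgebra N k S) := by
  rcases le_or_gt k 0 with hk | hk
  · exact finite_of_weight_nonpos N k hk S
  · obtain ⟨R, hζ, hfin⟩ := exists_zeta_ring N (Nat.pos_of_ne_zero (NeZero.ne N))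
    obtain ⟨ρ, hρ, hkey⟩ := key N k R hζ
    exact finite_of_key N k (by omega) S R hfin ρ hρ hkey

end Fermat.Agent.S22
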