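-- Statement S24: the genus of the function field of X₀(N) over ℚ̄ equals the classical formula.
import Fermat.Statements.S24
import Fermat.Agent.S24.RH
import Fermat.Agent.S24.LocalCount
import Fermat.Agent.S24.Analytic
import Fermat.Agent.S24.Comb

set_option autoImplicit false
open ModularCurve

namespace Fermat.Agent.S24

open AlgebraicCurve IntermediateField

/-- The identity permutation has as many orbits as points. -/
theorem orbitCount_one (ι : Type*) : orbitCount (1 : Equiv.Perm ι) = Nat.card ι := by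
  unfold orbitCount
  have e : Quotient (Equiv.Perm.SameCycle.setoid (1 : Equiv.Perm ι)) ≃ ι :=
    { toFun := Quotient.lift id (by
        intro a b h
        exact (Equiv.Perm.sameCycle_one.mp h))
      invFun := fun i => Quotient.mk _ i
      left_inv := by
        intro q
        induction q using Quotient.inductionOn with
        | h a => rfl
      right_inv := fun i => rfl }
  exact Nat.card_congr e

/-- There is an embedding of `ℚ̄` into `ℂ`. -/
theorem exists_ringHom_complex : Nonempty (AlgebraicClosure ℚ →+* ℂ) := by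
  letI : Algebra ℚ (AlgebraicClosure ℚ) := AlgebraicClosure.instAlgebra ℚ
  exact ⟨(IsAlgClosed.lift : AlgebraicClosure ℚ →ₐ[ℚ] ℂ).toRingHom⟩

theorem result (N : ℕ) [NeZero N]
    [AlgebraicCurve.HasCanonicalDivisor (K := AlgebraicClosure ℚ) (F := ↥(ModularCurve.modularFunctionFieldBar N))] :
    (AlgebraicCurve.genus (AlgebraicClosure ℚ) ↥(ModularCurve.modularFunctionFieldBar N) : ℚ)
      = ModularCurve.genusFormula N := by
  classical
  -- notation
  set x : FFL (AlgebraicClosure ℚ) N := jL (AlgebraicClosure ℚ) N with hxdef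
  have hx : Transcendental (AlgebraicClosure ℚ) x := transcendental_jL N (AlgebraicClosure ℚ)
  haveI : FiniteDimensional (AlgebraicClosure ℚ)⟮x⟯ (FFL (AlgebraicClosure ℚ) N) :=
    finiteDimensional_jL N (AlgebraicClosure ℚ)
  have hn : Module.finrank (AlgebraicClosure ℚ)⟮x⟯ (FFL (AlgebraicClosure ℚ) N) =
      Fintype.card (XX N) := finrank_jL N (AlgebraicClosure ℚ)
  -- an embedding of `ℚ̄` into `ℂ`
  obtain ⟨ι⟩ := exists_ringHom_complex
  -- the fibres
  have hgen : ∀ c : AlgebraicClosure ℚ, c ≠ 0 → c ≠ 1728 →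
      (zeroPlaces (AlgebraicClosure ℚ)
        (x - algebraMap (AlgebraicClosure ℚ) (FFL (AlgebraicClosure ℚ) N) c)).ncard =
        Fintype.card (XX N) := by
    intro c hc0 hc
    obtain ⟨τ, hτ⟩ := Jfun_surjective (ι c)
    have h := isLocalFamily_generic N (AlgebraicClosure ℚ) ι τ c hτ hc0 hc
    rw [ncard_zeroPlaces_eq_orbitCount (transcendental_sub_algebraMap hx c)
      (adjoin_sub_algebraMap x c) hn.symm one_pos h, orbitCount_one, Nat.card_eq_fintype_card]
  have h1728 : (zeroPlaces (AlgebraicClosure ℚ)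
        (x - algebraMap (AlgebraicClosure ℚ) (FFL (AlgebraicClosure ℚ) N) 1728)).ncard =
      orbitCount (MulAction.toPerm ModularGroup.S : Equiv.Perm (XX N)) :=
    ncard_zeroPlaces_eq_orbitCount (transcendental_sub_algebraMap hx 1728)
      (adjoin_sub_algebraMap x 1728) hn.symm two_pos (isLocalFamily_ptI N (AlgebraicClosure ℚ) ι)
  have h0 : (zeroPlaces (AlgebraicClosure ℚ)
        (x - algebraMap (AlgebraicClosure ℚ) (FFL (AlgebraicClosure ℚ) N) 0)).ncard =
      orbitCount (MulAction.toPerm (ModularGroup.S * ModularGroup.T) : Equiv.Perm (XX N)) :=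
    ncard_zeroPlaces_eq_orbitCount (transcendental_sub_algebraMap hx 0)
      (adjoin_sub_algebraMap x 0) hn.symm three_pos (isLocalFamily_ptRho N (AlgebraicClosure ℚ) ι)
  have hinf : (zeroPlaces (AlgebraicClosure ℚ) x⁻¹).ncard =
      orbitCount (MulAction.toPerm ModularGroup.T : Equiv.Perm (XX N)) :=
    ncard_zeroPlaces_eq_orbitCount (transcendental_inv hx)
      (adjoin_inv x) hn.symm (Nat.pos_of_ne_zero (NeZero.ne N))
      (isLocalFamily_infty N (AlgebraicClosure ℚ) ι)
  -- Riemann–Hurwitz
  have hne : (0 : AlgebraicClosure ℚ) ≠ 1728 := by norm_num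
  have hdeg : ∀ (ω : Ω[FFL (AlgebraicClosure ℚ) N⁄AlgebraicClosure ℚ]) (hω : ω ≠ 0)
      (D : Divisor (AlgebraicClosure ℚ) (FFL (AlgebraicClosure ℚ) N))
      (hD : ∀ v : Place (AlgebraicClosure ℚ) (FFL (AlgebraicClosure ℚ) N),
        D v = v.ordDifferential ω),
      Divisor.degree D = (Fintype.card (XX N) : ℤ)
        - orbitCount (MulAction.toPerm ModularGroup.S : Equiv.Perm (XX N))
        - orbitCount (MulAction.toPerm (ModularGroup.S * ModularGroup.T) : Equiv.Perm (XX N))
        - orbitCount (MulAction.toPerm ModularGroup.T : Equiv.Perm (XX N)) := by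
    intro ω hω D hD
    have h := degree_eq_of_fibres hx ({0, 1728} : Finset (AlgebraicClosure ℚ)) (by
      intro c hc
      rw [Finset.mem_insert, Finset.mem_singleton, not_or] at hc
      rw [hgen c hc.1 hc.2, hn]) ω hω D hD
    rw [h, Finset.sum_pair hne, h0, h1728, hinf, hn]
    ring
  -- combinatorics
  obtain ⟨g, hg⟩ := exists_genus N
  have hcard := card_XX N
  rw [Nat.card_eq_fintype_card] at hcard hg
  have hS := two_mul_orbitCount_S N
  have hST := three_mul_orbitCount_ST N
  have hT := orbitCount_T N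
  -- the genus
  haveI : Nontrivial (Ω[FFL (AlgebraicClosure ℚ) N⁄AlgebraicClosure ℚ]) := nontrivial_kaehler hx
  have hex : ∃ ω : Ω[FFL (AlgebraicClosure ℚ) N⁄AlgebraicClosure ℚ], ω ≠ 0 := exists_ne 0
  have hgenus : AlgebraicCurve.genus (AlgebraicClosure ℚ) (FFL (AlgebraicClosure ℚ) N) = g := by
    unfold AlgebraicCurve.genus
    rw [dif_pos hex]
    have hd := hdeg hex.choose hex.choose_spec (canonicalDivisorOf hex.choose_spec)
      (fun v => canonicalDivisorOf_apply hex.choose_spec v)
    rw [hd]
    have h2 : (Fintype.card (XX N) : ℤ)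
        - orbitCount (MulAction.toPerm ModularGroup.S : Equiv.Perm (XX N))
        - orbitCount (MulAction.toPerm (ModularGroup.S * ModularGroup.T) : Equiv.Perm (XX N))
        - orbitCount (MulAction.toPerm ModularGroup.T : Equiv.Perm (XX N)) + 2 = ((2 * g : ℕ) : ℤ) := by
      have := congrArg (Nat.cast : ℕ → ℤ) hg
      push_cast at this ⊢
      linarith
    rw [h2, Int.toNat_natCast]
    omega
  show (AlgebraicCurve.genus (AlgebraicClosure ℚ) (FFL (AlgebraicClosure ℚ) N) : ℚ) = _
  rw [hgenus]
  unfold ModularCurve.genusFormula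
  have e1 := congrArg (Nat.cast : ℕ → ℚ) hg
  have e2 := congrArg (Nat.cast : ℕ → ℚ) hS
  have e3 := congrArg (Nat.cast : ℕ → ℚ) hST
  have e4 := congrArg (Nat.cast : ℕ → ℚ) hT
  have e5 := congrArg (Nat.cast : ℕ → ℚ) hcard
  push_cast at e1 e2 e3 e4 e5
  linarith

end Fermat.Agent.S24
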