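import Fermat.Statements.S28
import Fermat.Agent.S28.Scheme
import Fermat.Agent.S28.Tensor
import Fermat.Agent.S28.ChartKer

/-!
S28 (Igusa): for `ℓ ∤ N` the base change of the Igusa model of `X₀(N)` over `ℤ_(ℓ)` to any field
`K` of characteristic `ℓ` is an integral scheme.

Assembly (P10 blueprint):
* `ChartKer.lean`: the reduction of `q`-expansions `redChart : chartAlg N ℓ S →+* 𝔽_ℓ((q))` has
  kernel `(ℓ)` for the three charts (this is where `ℓ ∤ N` enters, via the degree theorem
  `[𝔽_ℓ(j(q^d) : d ∣ N) : 𝔽_ℓ(j)] ≥ ψ(N)` of `TowerKT.lean` and the Gauss valuation ring);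
* `Tensor.lean`: hence `chartAlg N ℓ S ⊗[ℤ_(ℓ)] K` embeds into `K((q))` and is a domain;
* `Scheme.lean`: three domains glue to an integral scheme.
-/

set_option autoImplicit false
open AlgebraicGeometry CategoryTheory CategoryTheory.Limits ModularCurve ModularCurve.IgusaScheme
noncomputable section
set_option autoImplicit false
open ModularCurve ModularCurve.IgusaScheme

namespace Fermat.Agent.S28

set_option maxHeartbeats 4000000 in
set_option synthInstance.maxHeartbeats 400000 in
theorem result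
    (N : ℕ) [NeZero N] (ℓ : ℕ) [Fact ℓ.Prime] (hℓN : ¬ ℓ ∣ N)
    (K : Type) [Field K] [CharP K ℓ] [Algebra ↥(GaloisRep.ratLocalizedAt ℓ) K] :
    IsIntegral ↑(pullback (igusaTo N ℓ)
      (Spec.map (CommRingCat.ofHom (algebraMap ↥(GaloisRep.ratLocalizedAt ℓ) K)))) :=
  isIntegral_pullback_igusaTo_of_isDomain N ℓ K
    (Tensor.isDomain_tensor_of_ker_eq_span _ K (ker_redChart_fin N ℓ hℓN))
    (Tensor.isDomain_tensor_of_ker_eq_span _ K (ker_redChart_inf N ℓ hℓN))
    (Tensor.isDomain_tensor_of_ker_eq_span _ K (ker_redChart_mid N ℓ hℓN))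

end Fermat.Agent.S28
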