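import Fermat.Statements.S35
import Fermat.Agent.S30
import Fermat.Agent.S35.Transfer
import Fermat.Agent.S35.Lat
import Fermat.Agent.S35.KD
import Fermat.Agent.S35.Star

set_option autoImplicit false
open Polynomial
open CuspForm CuspForm.IsNewform

namespace Fermat.Agent.S35

open Fermat.Agent.S42 Fermat.Agent.S30 Fermat.Agent.S31 CongruenceSubgroup ModularCurve
open scoped MatrixGroups

/-- Clause 2 of S35 at level `N * q`. -/
theorem s35_clause_two {N q : ℕ} [NeZero N] [NeZero q] (hq : q.Prime) (hqN : ¬ q ∣ N)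
    {g : CuspForm (CongruenceSubgroup.Gamma0 (N * q)) 2} (hg : g.IsNewform)
    (lam : ℕ) [Fact lam.Prime] (S : Finset ℕ)
    (O' : Type) [CommRing O'] [IsDomain O'] [IsDiscreteValuationRing O'] [CharZero O']
    (chig : CuspForm.heckeAlgebra (N * q) 2 (↑S : Set ℕ) →+* ℂ)
    (hchig : ∀ (ℓ : ℕ) (hℓ : ℓ.Prime) (hℓM : ¬ ℓ ∣ N * q) (hℓS : ℓ ∉ (↑S : Set ℕ)),
      chig (CuspForm.heckeAlgebra.T hℓ hℓM hℓS) = ModularFormClass.qCoeff g ℓ)
    (iota : chig.range →+* O')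
    (hlamS : lam ∈ S) (hMS : ∀ r : ℕ, r.Prime → r ∣ N * q → r ∈ S)
    {O'' : Type} [CommRing O''] [IsDomain O''] [IsLocalRing O''] [IsNoetherianRing O'']
    [Algebra O' O''] (hlamO'' : (lam : O'') ∈ IsLocalRing.maximalIdeal O'')
    (ρ : GaloisRepAdic O'')
    (hρ : ∀ (ℓ : ℕ) (hℓ : ℓ.Prime) (hℓM : ¬ ℓ ∣ N * q) (hℓS : ℓ ∉ (↑S : Set ℕ)),
      ∀ A : ValuationSubring (AlgebraicClosure ℚ), A.LiesOverPrime ℓ →
        ∀ σ : AlgebraicClosure ℚ ≃ₐ[ℚ] AlgebraicClosure ℚ, A.IsFrobeniusAt σ ℓ →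
          LinearMap.charpoly (ρ.ρ σ) =
            X ^ 2 - C (algebraMap O' O'' ((iota.comp chig.rangeRestrict)
              (CuspForm.heckeAlgebra.T hℓ hℓM hℓS))) * X + C ((ℓ : O'')))
    (hqlam : q ≠ lam)
    (A : ValuationSubring (AlgebraicClosure ℚ)) (hA : A.LiesOverPrime q)
    (σ : AlgebraicClosure ℚ ≃ₐ[ℚ] AlgebraicClosure ℚ) (hσ : A.IsFrobeniusAt σ q) :
    LinearMap.charpoly (ρ.ρ σ) = X ^ 2 - C ((q : O'') + 1) * X + C ((q : O'')) ∨
      LinearMap.charpoly (ρ.ρ σ) = X ^ 2 + C ((q : O'') + 1) * X + C ((q : O'')) := by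
  have hcop : ∀ n : ℕ, Nat.Coprime (lam ^ n) q := fun n =>
    Nat.Coprime.pow_left n
      ((Nat.coprime_primes (Fact.out : lam.Prime) hq).mpr (fun h => hqlam h.symm))
  exact s35_charpoly_of_new lam S hlamS hMS hlamO'' (iota.comp chig.rangeRestrict) ρ hρ q hq hqlam
    (fun n => s35New N q (↑S : Set ℕ) (lam ^ n))
    (s35_lat_bound hq hqN hg lam S O' chig hchig iota)
    (fun n φ hφ => by
      haveI : NeZero (lam ^ n) := ⟨pow_ne_zero n (Fact.out : lam.Prime).ne_zero⟩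
      obtain ⟨x, hx, hxn⟩ := s35_kd hq hqN (↑S : Set ℕ) hφ
      exact ⟨x, hx, fun A hA σ hσ => s35_star hq hqN (hcop n) hxn A hA σ hσ⟩)
    A hA σ hσ

theorem result
    {M : ℕ} [NeZero M] {g : CuspForm (CongruenceSubgroup.Gamma0 M) 2} (hg : g.IsNewform)
    (lam : ℕ) [Fact lam.Prime]
    (S : Finset ℕ)
    (O' : Type) [CommRing O'] [IsDomain O'] [IsDiscreteValuationRing O']
    [IsAdicComplete (IsLocalRing.maximalIdeal O') O'] [Finite (IsLocalRing.ResidueField O')]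
    [CharZero O'] (hlamO' : (lam : O') ∈ IsLocalRing.maximalIdeal O')
    (chig : CuspForm.heckeAlgebra M 2 (↑S : Set ℕ) →+* ℂ)
    (hchig : ∀ (ℓ : ℕ) (hℓ : ℓ.Prime) (hℓM : ¬ ℓ ∣ M) (hℓS : ℓ ∉ (↑S : Set ℕ)),
      chig (CuspForm.heckeAlgebra.T hℓ hℓM hℓS) = ModularFormClass.qCoeff g ℓ)
    (iota : chig.range →+* O')
    (hlamS : lam ∈ S) (hMS : ∀ q : ℕ, q.Prime → q ∣ M → q ∈ S)
    :
    ∃ (O'' : Type) (_ : CommRing O'') (_ : IsDomain O'') (_ : IsDiscreteValuationRing O'')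
      (_ : IsAdicComplete (IsLocalRing.maximalIdeal O'') O'') (_ : Finite (IsLocalRing.ResidueField O''))
      (_ : CharZero O'') (_ : Algebra O' O'') (_ : Module.Finite O' O'') (_ : IsLocalHom (algebraMap O' O'')),
      Function.Injective (algebraMap O' O'') ∧
      ∃ ρ : GaloisRepAdic O'',
        (∀ (ℓ : ℕ) (hℓ : ℓ.Prime) (hℓM : ¬ ℓ ∣ M) (hℓS : ℓ ∉ (↑S : Set ℕ)),
          ∀ A : ValuationSubring (AlgebraicClosure ℚ), A.LiesOverPrime ℓ →
            ∀ σ : AlgebraicClosure ℚ ≃ₐ[ℚ] AlgebraicClosure ℚ, A.IsFrobeniusAt σ ℓ →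
              LinearMap.charpoly (ρ.ρ σ) =
                X ^ 2 - C (algebraMap O' O'' ((iota.comp chig.rangeRestrict) (CuspForm.heckeAlgebra.T hℓ hℓM hℓS))) * X
                  + C ((ℓ : O''))) ∧
        (∀ q : ℕ, q.Prime → q ≠ lam → q ∣ M → ¬ q ^ 2 ∣ M →
          ∀ A : ValuationSubring (AlgebraicClosure ℚ), A.LiesOverPrime q →
            ∀ σ : AlgebraicClosure ℚ ≃ₐ[ℚ] AlgebraicClosure ℚ, A.IsFrobeniusAt σ q →
              LinearMap.charpoly (ρ.ρ σ) = X ^ 2 - C ((q : O'') + 1) * X + C ((q : O'')) ∨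
              LinearMap.charpoly (ρ.ρ σ) = X ^ 2 + C ((q : O'') + 1) * X + C ((q : O''))) := by
  obtain ⟨O'', i1, i2, i3, i4, i5, i6, i7, i8, i9, hinj, ρ, h1, -⟩ :=
    Fermat.Agent.S30.result lam M S hlamS hMS O' hlamO' (iota.comp chig.rangeRestrict)
  refine ⟨O'', i1, i2, i3, i4, i5, i6, i7, i8, i9, hinj, ρ, h1, ?_⟩
  intro q hq hqlam hqM hq2 A hA σ hσ
  have hlamO'' : (lam : O'') ∈ IsLocalRing.maximalIdeal O'' := by
    have h : (lam : O'') = algebraMap O' O'' (lam : O') := (map_natCast (algebraMap O' O'') lam).symm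
    rw [h]
    exact map_nonunit (algebraMap O' O'') _ hlamO'
  obtain ⟨N, rfl⟩ : ∃ N, M = N * q := ⟨M / q, (Nat.div_mul_cancel hqM).symm⟩
  have hqN : ¬ q ∣ N := by
    rintro ⟨k, rfl⟩
    exact hq2 ⟨k, by ring⟩
  have hN0 : N ≠ 0 := fun h => NeZero.ne (N * q) (by rw [h, zero_mul])
  haveI : NeZero N := ⟨hN0⟩
  haveI : NeZero q := ⟨hq.ne_zero⟩
  exact s35_clause_two hq hqN hg lam S O' chig hchig iota hlamS hMS hlamO'' ρ h1 hqlam A hA σ hσ

end Fermat.Agent.S35
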