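-- Statement S37 (row 36): the Eichler–Shimura congruence relation in the packaged form
-- `SpecializationExists` for `J₀(N)`.
import Fermat.Statements.S37
import Fermat.Agent.S37.Main

set_option autoImplicit false
open ModularCurve

namespace Fermat.Agent.S37

theorem result (N p : ℕ) [NeZero N] (hcomm : ModularCurve.HeckeOperatorsCommuteBar N) : letI := ModularCurve.heckeModuleBar N; ∀ (_ : SMulCommClass (AlgebraicClosure ℚ ≃ₐ[ℚ] AlgebraicClosure ℚ) ModularCurve.HeckeAlg (ModularCurve.JZero N)), ModularCurve.SpecializationExists (K := ℚ) (L := AlgebraicClosure ℚ) N p (ModularCurve.JZero N) :=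
  Fermat.Agent.S37.specializationExists_JZero_of_reduction N p hcomm
    (fun ℓ hℓ hℓNp A hA => exists_reduction N p ℓ hℓ hℓNp A hA)

end Fermat.Agent.S37
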