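-- Statement S42 (row 43): EigenformResidualAttachmentAt M for every level M > 0.
import Fermat.Statements.S42
import Fermat.Agent.S42.E12Main

set_option autoImplicit false
open FreyPackage

namespace Fermat.Agent.S42

theorem result (P : FreyPackage) :
    ∀ M : ℕ, 0 < M → P.EigenformResidualAttachmentAt M :=
  s42_of_E12 P (fun M _ => frobeniusRelation M P.p) (fun M _ => inertiaTrivial M P.p)

end Fermat.Agent.S42
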