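import Fermat.Statements.S49
import Fermat.Agent.S49.Hecke

set_option autoImplicit false
open CuspForm EisensteinWeightOne CongruenceSubgroup ModularFormClass
open FLT FLT.AbstractIntegralStructure

namespace Fermat.Agent.S49

theorem result
    {N : ℕ} [NeZero N] (h : CuspForm.HasIntegralBasis N) {a : ℕ → ℤ}
    (heig : FormalHecke.IsEigensystem
      (fun ℓ => if ℓ ∣ N then 0 else ((chiNegThree ℓ : ℤ) : ℤ)) a)
    (hreal : CuspForm.IsLatticeRealized N a) :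
    ∃ (f : CuspForm (Gamma0 N) 2) (_ : f.IsNormalizedEigenform)
      (𝔪' : Ideal (integralClosure ℤ ℂ)), 𝔪'.IsMaximal ∧
      ((3 : ℕ) : integralClosure ℤ ℂ) ∈ 𝔪' ∧
      ∀ (ℓ : ℕ) (_ : ℓ.Prime) (_ : ¬ ℓ ∣ N),
        ∃ c : integralClosure ℤ ℂ, (c : ℂ) = ModularFormClass.qCoeff f ℓ ∧
          c - (a ℓ : integralClosure ℤ ℂ) ∈ 𝔪' := by
  obtain ⟨ha1, harec⟩ := heig
  obtain ⟨F, hF, af, haf, hcong⟩ := hreal
  have hcong' : ∀ n, (3 : ℤ) ∣ af n - a n := fun n => by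
    have := dvd_add (hcong n) (bridge_coeff_congr a n)
    simpa using this
  have hafa : ∀ n, ((af n : ℤ) : ZMod 3) = ((a n : ℤ) : ZMod 3) := fun n => by
    rw [← sub_eq_zero, ← Int.cast_sub, ZMod.intCast_zmod_eq_zero_iff_dvd]
    exact hcong' n
  obtain ⟨𝔪, h𝔪max, h3⟩ := FLTPrelim.exists_maximalIdeal_natCast_prime_mem Nat.prime_three
  have hfd := finiteDimensional_of_hasIntegralBasis h
  have hFL : F ∈ CuspForm.intLattice N 2 :=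
    (mem_intLattice_iff_cusp F).2 (fun n => ⟨af n, (haf n).symm⟩)
  have h3' : ((3 : ℤ) : integralClosure ℤ ℂ) ∈ 𝔪 := by exact_mod_cast h3
  have hu : ((af 1 : ℤ) : integralClosure ℤ ℂ) ∉ 𝔪 := by
    intro hmem
    obtain ⟨k, hk⟩ := hcong' 1
    have h1 : (1 : integralClosure ℤ ℂ) ∈ 𝔪 := by
      have e : (1 : integralClosure ℤ ℂ) =
          ((af 1 : ℤ) : integralClosure ℤ ℂ) - ((3 : ℤ) : integralClosure ℤ ℂ) * ((k : ℤ) : integralClosure ℤ ℂ) := by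
        have : af 1 = 1 + 3 * k := by rw [ha1] at hk; linarith
        rw [this]; push_cast; ring
      rw [e]
      exact 𝔪.sub_mem hmem (𝔪.mul_mem_right _ h3')
    exact h𝔪max.ne_top ((Ideal.eq_top_iff_one 𝔪).2 h1)
  have hkey : ∀ ℓ : {p : ℕ // p.Prime}, ∃ g ∈ CuspForm.intLattice N 2,
      heckeFam N ℓ F - ((a ℓ : ℤ) : ℂ) • F = ((3 : ℤ) : ℂ) • g := by
    intro ℓ
    refine ⟨(3 : ℂ)⁻¹ • (heckeFam N ℓ F - ((a ℓ : ℤ) : ℂ) • F), ?_, ?_⟩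
    · rw [mem_intLattice_iff_cusp]
      intro n
      have hdiv : (3 : ℤ) ∣ af (n * ℓ) +
          (dfac N ℓ : ℤ) * (if (ℓ : ℕ) ∣ n then af (n / ℓ) else 0) - a ℓ * af n := by
        refine (ZMod.intCast_zmod_eq_zero_iff_dvd _ 3).1 ?_
        have hr := congrArg (fun x : ℤ => (x : ZMod 3)) (harec ℓ ℓ.prop n)
        simp only at hr
        push_cast at hr ⊢
        simp only [hafa]
        rw [dfac_congr, mul_comm n (ℓ : ℕ), sub_eq_zero]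
        exact hr
      obtain ⟨m, hm⟩ := hdiv
      refine ⟨m, ?_⟩
      rw [qCoeff_smul_cusp, qCoeff_sub_cusp, qCoeff_smul_cusp, qCoeff_heckeFam]
      by_cases hd : (ℓ : ℕ) ∣ n
      · rw [if_pos hd] at hm ⊢
        have hm' := congrArg (fun x : ℤ => (x : ℂ)) hm
        push_cast at hm'
        simp only [← haf]
        linear_combination (3 : ℂ)⁻¹ * hm'
      · rw [if_neg hd] at hm ⊢
        have hm' := congrArg (fun x : ℤ => (x : ℂ)) hm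
        push_cast at hm'
        simp only [← haf]
        linear_combination (3 : ℂ)⁻¹ * hm'
    · rw [smul_smul]
      norm_num
  obtain ⟨g, χ, hg0, hgeig, hχ⟩ := exists_common_eigenvector_congr (heckeFam N)
    heckeFam_commute (CuspForm.intLattice N 2) (CuspForm.intLattice_fg N 2) (span_intLattice h)
    (fun ℓ x hx => heckeFam_mem_intLattice ℓ hx) (coeffLin N 1)
    (fun x hx => (mem_intLattice_iff_cusp x).1 hx 1)
    𝔪 h𝔪max.isPrime 3 h3' F ((af 1 : ℤ) : integralClosure ℤ ℂ) hu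
    (by rw [coeffLin_apply, ← haf]; simp) (fun ℓ => a ℓ) hkey
  have hrel : ∀ (ℓ : {p : ℕ // p.Prime}) (n : ℕ), qCoeff ⇑g (n * ℓ) =
      (χ ℓ : ℂ) * qCoeff ⇑g n -
        (dfac N ℓ : ℂ) * (if (ℓ : ℕ) ∣ n then qCoeff ⇑g (n / ℓ) else 0) := by
    intro ℓ n
    have := qCoeff_heckeFam ℓ g n
    rw [hgeig ℓ, qCoeff_smul_cusp] at this
    linear_combination -this
  have hc1 : qCoeff ⇑g 1 ≠ 0 := by
    intro h0
    apply hg0
    apply eq_zero_of_forall_qCoeff_eq_zero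
    intro n
    rcases Nat.eq_zero_or_pos n with rfl | hn
    · exact qCoeff_zero_cusp g
    · exact formal_vanish (fun n => qCoeff ⇑g n)
        (fun ℓ => if hℓ : ℓ.Prime then (χ ⟨ℓ, hℓ⟩ : ℂ) else 0) (fun ℓ => (dfac N ℓ : ℂ)) h0
        (fun ℓ hℓ n => by simpa [hℓ] using hrel ⟨ℓ, hℓ⟩ n) n hn
  have hb : ∀ n, qCoeff ⇑((qCoeff ⇑g 1)⁻¹ • g) n = (qCoeff ⇑g 1)⁻¹ * qCoeff ⇑g n :=
    fun n => qCoeff_smul_cusp _ _ _
  have hb1 : qCoeff ⇑((qCoeff ⇑g 1)⁻¹ • g) 1 = 1 := by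
    rw [hb]; exact inv_mul_cancel₀ hc1
  have hbℓ : ∀ ℓ : {p : ℕ // p.Prime}, qCoeff ⇑((qCoeff ⇑g 1)⁻¹ • g) ℓ = χ ℓ := by
    intro ℓ
    have := hrel ℓ 1
    rw [one_mul, if_neg (Nat.Prime.not_dvd_one ℓ.prop), mul_zero, sub_zero] at this
    rw [hb, this]
    field_simp
  have hrel' : ∀ ℓ : ℕ, ℓ.Prime → ∀ n, qCoeff ⇑((qCoeff ⇑g 1)⁻¹ • g) (n * ℓ) =
      qCoeff ⇑((qCoeff ⇑g 1)⁻¹ • g) ℓ * qCoeff ⇑((qCoeff ⇑g 1)⁻¹ • g) n -
        (dfac N ℓ : ℂ) * (if ℓ ∣ n then qCoeff ⇑((qCoeff ⇑g 1)⁻¹ • g) (n / ℓ) else 0) := by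
    intro ℓ hℓ n
    rw [hbℓ ⟨ℓ, hℓ⟩, hb, hb, hb, hrel ⟨ℓ, hℓ⟩ n]
    split_ifs <;> ring
  refine ⟨(qCoeff ⇑g 1)⁻¹ • g, ⟨hb1, formal_mul_coprime _ _ hb1 hrel', ?_, ?_⟩,
    𝔪, h𝔪max, h3, ?_⟩
  · intro p r hp hpN
    have := hrel' p hp (p ^ (r + 1))
    rw [← pow_succ, if_pos (dvd_pow_self p (by omega)),
      show p ^ (r + 1) / p = p ^ r from by rw [pow_succ, Nat.mul_div_cancel _ hp.pos],
      dfac, if_neg hpN] at this
    exact this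
  · intro p r hp hpN
    have := hrel' p hp (p ^ (r + 1))
    rw [← pow_succ, dfac, if_pos hpN] at this
    simpa using this
  · intro ℓ hℓ hℓN
    exact ⟨χ ⟨ℓ, hℓ⟩, (hbℓ ⟨ℓ, hℓ⟩).symm, hχ ⟨ℓ, hℓ⟩⟩

end Fermat.Agent.S49
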