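import Fermat.Statements.S51
import Fermat.Agent.S51.Galois
import Fermat.Agent.S51.Algebra
import Fermat.Agent.S51.X015

set_option autoImplicit false
open WeierstrassCurve WeierstrassCurve.Affine WeierstrassCurve.Affine.Point
open CuspForm ModularFormClass UpperHalfPlane
open WeierstrassCurve

namespace Fermat.Agent.S51

theorem result (W : WeierstrassCurve ℤ) (hΔ : W.Δ ≠ 0) (hW : W.IsSemistableModel) : W.ModRepIsIrreducible 3 ∨ W.ModRepIsIrreducible 5 := by
  by_contra hcon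
  rw [not_or] at hcon
  obtain ⟨h3, h5⟩ := hcon
  have hΔE : (W.map (Int.castRingHom ℚ)).Δ ≠ 0 := by
    rw [WeierstrassCurve.map_Δ]; simpa using hΔ
  obtain ⟨x, hx⟩ := exists_rat_psi3 W hΔ h3
  obtain ⟨ρ, r, hr, hI, hII⟩ := exists_rat_five W hΔ h5
  obtain ⟨u, hu, hueq⟩ := exists_u_of_psi3 _ hΔE x hx
  obtain ⟨h, hh, hheq⟩ := exists_h_of_five _ hΔE ρ r hr hI hII
  have hF : (u + 27) * (u + 3) ^ 3 * h = (h ^ 2 + 10 * h + 5) ^ 3 * u := by
    apply mul_left_cancel₀ hΔE
    linear_combination h * hueq.symm + u * hheq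
  have h1 := h_values u h hu hh hF
  have h2 := not_semistable_of_h W.c₄ W.Δ hΔ hW h (by
    rw [WeierstrassCurve.map_Δ, WeierstrassCurve.map_c₄] at hheq
    simpa using hheq)
  tauto

end Fermat.Agent.S51
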