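-- Statement S52 (row 46): the theorem WeierstrassCurve.threeFiveSwitchCurve.
-- P17: Frobenius relation on reductions (block F), reduction of 5-torsion (block R), the Klein
-- family of curves with the same mod 5 representation (block X), integral semistable models in
-- the family (block M12), a member with irreducible mod 3 representation (block M3).
import Fermat.Statements.S52
import Fermat.Agent.S52.RMain
import Fermat.Agent.S52.M1Main
import Fermat.Agent.S52.M1Short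
import Fermat.Agent.S52.M1Perturb
import Fermat.Agent.S52.M1Poly
import Fermat.Agent.S52.M3Main
import Fermat.Agent.S52.XMain
import Fermat.Agent.S54.Frobenius

set_option autoImplicit false
open WeierstrassCurve WeierstrassCurve.Affine WeierstrassCurve.Affine.Point
open CuspForm ModularFormClass UpperHalfPlane
open WeierstrassCurve

namespace Fermat.Agent.S52

local notation "Qbar" => AlgebraicClosure ℚ

/-! ### Consequences of `IsTorsionIso5`-type hypotheses -/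

section TorsionMap

variable {G H : Type*} [AddCommGroup G] [AddCommGroup H] (ψ : G → H)
  (hadd : ∀ P Q : G, 5 • P = 0 → 5 • Q = 0 → ψ (P + Q) = ψ P + ψ Q)

include hadd

theorem fin_map_zero : ψ 0 = 0 := by
  have h := hadd 0 0 (smul_zero _) (smul_zero _)
  rw [add_zero] at h
  exact (add_eq_left.mp h.symm)

theorem fin_map_nsmul (n : ℕ) (P : G) (hP : 5 • P = 0) : ψ (n • P) = n • ψ P := by
  induction n with
  | zero => rw [zero_smul, zero_smul]; exact fin_map_zero ψ hadd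
  | succ n ih =>
    have h5 : 5 • (n • P) = 0 := by rw [smul_comm, hP, smul_zero]
    rw [succ_nsmul, succ_nsmul, hadd _ _ h5 hP, ih]

theorem fin_map_torsion (P : G) (hP : 5 • P = 0) : 5 • ψ P = 0 := by
  rw [← fin_map_nsmul ψ hadd 5 P hP, hP]
  exact fin_map_zero ψ hadd

theorem fin_map_neg (P : G) (hP : 5 • P = 0) : ψ (-P) = -ψ P := by
  have h5 : 5 • (-P) = 0 := by rw [smul_neg, hP, _root_.neg_zero]
  have h := hadd P (-P) hP h5
  rw [add_neg_cancel, fin_map_zero ψ hadd] at h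
  exact (neg_eq_of_add_eq_zero_right h.symm).symm

theorem fin_map_zsmul (z : ℤ) (P : G) (hP : 5 • P = 0) : ψ (z • P) = z • ψ P := by
  obtain ⟨n, rfl | rfl⟩ := Int.eq_nat_or_neg z
  · rw [natCast_zsmul, natCast_zsmul]
    exact fin_map_nsmul ψ hadd n P hP
  · have h5 : 5 • (n • P) = 0 := by rw [smul_comm, hP, smul_zero]
    rw [_root_.neg_smul, _root_.neg_smul, natCast_zsmul, natCast_zsmul, fin_map_neg ψ hadd _ h5,
      fin_map_nsmul ψ hadd n P hP]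

end TorsionMap

/-- A point killed by `5` and by an integer prime to `5` is zero. -/
theorem fin_eq_zero_of_smul {G : Type*} [AddCommGroup G] (P : G) (hP : 5 • P = 0) (z : ℤ)
    (hz : z • P = 0) (h5 : ¬ (5 : ℤ) ∣ z) : P = 0 := by
  have hcop : IsCoprime (5 : ℤ) z := by
    rw [Int.isCoprime_iff_gcd_eq_one]
    have hp : Prime (5 : ℤ) := by
      rw [Int.prime_iff_natAbs_prime]; norm_num
    exact Int.isCoprime_iff_gcd_eq_one.mp ((Prime.coprime_iff_not_dvd hp).mpr h5)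
  obtain ⟨a, b, hab⟩ := hcop
  have h1 : (a * 5 + b * z) • P = P := by rw [hab, one_smul]
  rw [add_smul, mul_smul, mul_smul, hz, smul_zero, add_zero] at h1
  have h2 : (5 : ℤ) • P = 0 := by
    have : ((5 : ℕ) : ℤ) • P = 0 := by rw [natCast_zsmul]; exact hP
    simpa using this
  rw [h2, smul_zero] at h1
  exact h1.symm

open Polynomial in
/-- (I-XM) The switch curve: a semistable integral model `W'` with irreducible mod `3`
representation and a Galois-equivariant injective additive map `W[5] → W'[5]`. -/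
theorem exists_switch (W : WeierstrassCurve ℤ) (hΔ : W.Δ ≠ 0) (hW : W.IsSemistableModel) :
    ∃ W' : WeierstrassCurve ℤ, W'.Δ ≠ 0 ∧ W'.IsSemistableModel ∧ W'.ModRepIsIrreducible 3 ∧
      ∃ ψ : (S51.gal_V W).Point → (S51.gal_V W').Point,
        (∀ P Q : (S51.gal_V W).Point, 5 • P = 0 → 5 • Q = 0 → ψ (P + Q) = ψ P + ψ Q) ∧
        (∀ P : (S51.gal_V W).Point, 5 • P = 0 → ψ P = 0 → P = 0) ∧
        (∀ (σ : Qbar ≃ₐ[ℚ] Qbar) (P : (S51.gal_V W).Point), 5 • P = 0 →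
          ψ (σ • P) = σ • ψ P) := by
  obtain ⟨hc4, hc6⟩ := c4_c6_ne_zero W hΔ hW
  have hrel : (1728 : ℚ) * (W.Δ : ℚ) = (W.c₄ : ℚ) ^ 3 - (W.c₆ : ℚ) ^ 2 := by
    exact_mod_cast W.c_relation
  have hh : -(W.c₄ : ℚ) ≠ 0 := neg_ne_zero.mpr (by exact_mod_cast hc4)
  have hτ : -(W.c₆ : ℚ) ≠ 0 := neg_ne_zero.mpr (by exact_mod_cast hc6)
  have hd : (-(W.c₄ : ℚ)) ^ 3 + (-(W.c₆ : ℚ)) ^ 2 ≠ 0 := by
    have h1 : (-(W.c₄ : ℚ)) ^ 3 + (-(W.c₆ : ℚ)) ^ 2 = -(1728 * (W.Δ : ℚ)) := by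
      rw [hrel]; ring
    rw [h1]
    have h2 : (W.Δ : ℚ) ≠ 0 := by exact_mod_cast hΔ
    exact neg_ne_zero.mpr (mul_ne_zero (by norm_num) h2)
  obtain ⟨K⟩ := exists_kleinFamily _ _ hh hτ hd
  -- coprimality of `-Hp`, `-Tp`
  have hcop : IsCoprime (-K.Hp) (-K.Tp) := by
    obtain ⟨a, b, hab⟩ := K.coprime
    have h1 : C (1 / 1728 : ℚ) * (C 1728 * K.Fp) = K.Fp := by
      rw [← mul_assoc, ← C_mul]
      norm_num
    have h2 : IsCoprime K.Hp K.Tp := by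
      refine ⟨a + C (1 / 1728 : ℚ) * b * K.Hp ^ 2, C (1 / 1728 : ℚ) * b * K.Tp, ?_⟩
      calc (a + C (1 / 1728 : ℚ) * b * K.Hp ^ 2) * K.Hp + C (1 / 1728 : ℚ) * b * K.Tp * K.Tp
          = a * K.Hp + b * (C (1 / 1728 : ℚ) * (K.Tp ^ 2 + K.Hp ^ 3)) := by ring
        _ = 1 := by rw [K.rel, h1, hab]
    exact h2.neg_neg
  obtain ⟨M, hM, -, hfam⟩ := exists_perturb_family W hΔ hW (-K.Hp) (-K.Tp)
    (by rw [eval_neg, K.Hp_zero, neg_neg]) (by rw [eval_neg, K.Tp_zero, neg_neg]) hcop 1 one_pos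
  obtain ⟨q, hq, hqS, t₀, ht₀⟩ := exists_irred_prime W hΔ K M.primeFactors
  have hqM : ¬ q ∣ M := fun h => hqS (Nat.mem_primeFactors.mpr ⟨hq, h, hM.ne'⟩)
  obtain ⟨t, htM, htq⟩ := exists_dvd_and_modEq hq hqM t₀
  obtain ⟨W', hΔ', hss', h4', h6', -⟩ := hfam t htM
  rw [eval_neg] at h4' h6'
  obtain ⟨-, hnoroot⟩ := ht₀ t htq W' h4' h6'
  have hirr : W'.ModRepIsIrreducible 3 := by
    by_contra hcon
    exact hnoroot (S51.exists_rat_psi3 W' hΔ' hcon)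
  refine ⟨W', hΔ', hss', hirr, ?_⟩
  have hrel' : (1728 : ℚ) * (W'.Δ : ℚ) = (W'.c₄ : ℚ) ^ 3 - (W'.c₆ : ℚ) ^ 2 := by
    exact_mod_cast W'.c_relation
  have hF : K.Fp.eval (t : ℚ) ≠ 0 := by
    intro h0
    have h1 := congrArg (Polynomial.eval (t : ℚ)) K.rel
    simp only [eval_add, eval_pow, eval_mul, eval_C, h0, mul_zero] at h1
    have h2 : (1728 : ℚ) * (W'.Δ : ℚ) = 0 := by
      rw [hrel', h4', h6']
      linear_combination -h1
    have h3 : (W'.Δ : ℚ) ≠ 0 := by exact_mod_cast hΔ'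
    exact (mul_ne_zero (by norm_num) h3) h2
  obtain ⟨ψt, hψt⟩ := K.iso (t : ℚ) hF
  obtain ⟨e, he⟩ := short_iso W hΔ (-(W.c₄ : ℚ)) (-(W.c₆ : ℚ)) rfl rfl
  obtain ⟨e', he'⟩ := short_iso W' hΔ' (K.Hp.eval (t : ℚ)) (K.Tp.eval (t : ℚ))
    (by rw [h4', neg_neg]) (by rw [h6', neg_neg])
  have e5 : ∀ P : (S51.gal_V W).Point, 5 • P = 0 → 5 • e P = 0 := by
    intro P hP
    rw [← map_nsmul, hP, _root_.map_zero]
  have he'symm : ∀ (σ : Qbar ≃ₐ[ℚ] Qbar)
      (Q : ((shortCurve (K.Hp.eval (t : ℚ)) (K.Tp.eval (t : ℚ)))⁄Qbar).Point),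
      e'.symm (σ • Q) = σ • e'.symm Q := by
    intro σ Q
    apply e'.injective
    rw [he', AddEquiv.apply_symm_apply, AddEquiv.apply_symm_apply]
  refine ⟨fun P => e'.symm (ψt (e P)), ?_, ?_, ?_⟩
  · intro P Q hP hQ
    show e'.symm (ψt (e (P + Q))) = e'.symm (ψt (e P)) + e'.symm (ψt (e Q))
    rw [map_add, hψt.map_add _ _ (e5 P hP) (e5 Q hQ), map_add]
  · intro P hP h0
    have h1 : ψt (e P) = 0 := by
      have := congrArg e' h0
      rwa [AddEquiv.apply_symm_apply, _root_.map_zero] at this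
    have h2 := hψt.inj _ (e5 P hP) h1
    exact (map_eq_zero_iff e e.injective).mp h2
  · intro σ P hP
    show e'.symm (ψt (e (σ • P))) = σ • e'.symm (ψt (e P))
    rw [he, hψt.equivariant σ _ (e5 P hP), he'symm]

/-- Final assembly for S52. -/
theorem switch_result (W : WeierstrassCurve ℤ) (hΔ : W.Δ ≠ 0) (hW : W.IsSemistableModel) :
    ∃ W' : WeierstrassCurve ℤ, W'.Δ ≠ 0 ∧ W'.IsSemistableModel ∧ W'.ModRepIsIrreducible 3 ∧
      ∀ ℓ : ℕ, ℓ.Prime → W.IsGoodPrimeFor ℓ → W'.IsGoodPrimeFor ℓ → ℓ ≠ 5 →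
        (5 : ℤ) ∣ (W'.apOfModel ℓ - W.apOfModel ℓ) := by
  obtain ⟨W', hΔ', hss', hirr, ψ, hadd, hinj, hequiv⟩ := exists_switch W hΔ hW
  refine ⟨W', hΔ', hss', hirr, ?_⟩
  intro ℓ hℓ hgood hgood' hℓ5
  obtain ⟨A, σ, hA, hσ⟩ := Fermat.Agent.S54.exists_isFrobeniusAt ℓ hℓ
  obtain ⟨P, hP0, hP⟩ := S51.exists_five_torsion (S51.gal_V W) (S51.gal_V_Δ W hΔ)
  by_contra hdvd
  -- torsion facts
  have hσP : 5 • (σ • P) = 0 := by rw [← S51.gal_smul_nsmul, hP]; exact smul_zero σ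
  have hσσP : 5 • (σ • (σ • P)) = 0 := by rw [← S51.gal_smul_nsmul, hσP]; exact smul_zero σ
  have hψP : 5 • ψ P = 0 := fin_map_torsion ψ hadd P hP
  -- the two relations
  have r1 := frob_quadratic W ℓ hℓ hgood hℓ5 A hA σ hσ P hP
  have r2 := frob_quadratic W' ℓ hℓ hgood' hℓ5 A hA σ hσ (ψ P) hψP
  have r1' : σ • (σ • P) + (ℓ : ℤ) • P = W.apOfModel ℓ • (σ • P) := by
    rw [← sub_eq_zero, ← r1]; abel
  have r2' : σ • (σ • ψ P) + (ℓ : ℤ) • ψ P = W'.apOfModel ℓ • (σ • ψ P) := by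
    rw [← sub_eq_zero, ← r2]; abel
  have hℓP : 5 • ((ℓ : ℤ) • P) = 0 := by rw [smul_comm, hP, smul_zero]
  have r3 := congrArg ψ r1'
  rw [hadd _ _ hσσP hℓP, fin_map_zsmul ψ hadd _ _ hP, fin_map_zsmul ψ hadd _ _ hσP,
    hequiv σ _ hσP, hequiv σ _ hP, r2'] at r3
  have r4 : (W'.apOfModel ℓ - W.apOfModel ℓ) • (σ • ψ P) = 0 := by
    rw [sub_smul, r3, sub_self]
  have hσψ5 : 5 • (σ • ψ P) = 0 := by
    rw [← S51.gal_smul_nsmul, hψP]
    exact smul_zero (A := (S51.gal_V W').Point) σ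
  have h0 := fin_eq_zero_of_smul _ hσψ5 _ r4 hdvd
  have h1 : ψ P = 0 := (smul_eq_zero_iff_eq σ).mp h0
  exact hP0 (hinj P hP h1)

theorem result (W : WeierstrassCurve ℤ) (hΔ : W.Δ ≠ 0) (hW : W.IsSemistableModel) (h5 : W.ModRepIsIrreducible 5) : ∃ W' : WeierstrassCurve ℤ, W'.Δ ≠ 0 ∧ W'.IsSemistableModel ∧ W'.ModRepIsIrreducible 3 ∧ ∀ ℓ : ℕ, ℓ.Prime → W.IsGoodPrimeFor ℓ → W'.IsGoodPrimeFor ℓ → ℓ ≠ 5 → (5 : ℤ) ∣ (W'.apOfModel ℓ - W.apOfModel ℓ) := by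
  have _ := h5
  exact switch_result W hΔ hW

end Fermat.Agent.S52
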