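-- Statement S57 (row 51): patching descent step.
import Fermat.Statements.S57
import Fermat.Agent.S57.Depth
import Fermat.Agent.S57.Params
import Mathlib.LinearAlgebra.FreeModule.Basic
import Mathlib.LinearAlgebra.TensorProduct.Basic
import Mathlib.RingTheory.Flat.Basic

set_option autoImplicit false
open Algebra Algebra.PatchingLevel

namespace Fermat.Agent.S57

open MvPowerSeries RingTheory.Sequence IsLocalRing

section

variable {𝒪 : Type} [CommRing 𝒪] {r : ℕ} {R : Type} [CommRing R] [Algebra 𝒪 R]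
    {M : Type} [AddCommGroup M] [Module R M]
    (L : Algebra.PatchingLevel 𝒪 r R M ⊥)

/-- The `φ`-semilinear parametrisation of `N` by coordinate vectors. -/
noncomputable def coordMap : (Fin L.d → MvPowerSeries (Fin r) 𝒪) →+ L.N where
  toFun c := ∑ i, L.φ (c i) • L.b i
  map_zero' := by simp
  map_add' c c' := by simp [add_smul, Finset.sum_add_distrib]

lemma coordMap_apply (c : Fin L.d → MvPowerSeries (Fin r) 𝒪) :
    coordMap L c = ∑ i, L.φ (c i) • L.b i := rfl

lemma coordMap_bijective : Function.Bijective (coordMap L) := by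
  constructor
  · rw [injective_iff_map_eq_zero]
    intro c hc
    have h := (L.b_rel c).mp hc
    ext1 i
    exact (Ideal.mem_bot.mp (h i))
  · intro x
    obtain ⟨c, hc⟩ := L.b_span x
    exact ⟨c, hc.symm⟩

lemma coordMap_smul (f : MvPowerSeries (Fin r) 𝒪) (c : Fin L.d → MvPowerSeries (Fin r) 𝒪) :
    coordMap L (f • c) = L.φ f • coordMap L c := by
  simp [coordMap_apply, Finset.smul_sum, mul_smul]

/-- `coordMap` as an additive equivalence. -/
noncomputable def coordEquiv : (Fin L.d → MvPowerSeries (Fin r) 𝒪) ≃+ L.N :=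
  AddEquiv.ofBijective (coordMap L) (coordMap_bijective L)

lemma isWeaklyRegular_map_φ (rs : List (MvPowerSeries (Fin r) 𝒪))
    (h : IsWeaklyRegular (MvPowerSeries (Fin r) 𝒪) rs) :
    IsWeaklyRegular L.N (rs.map L.φ) := by
  have h2 : IsWeaklyRegular (Fin L.d → MvPowerSeries (Fin r) 𝒪) rs :=
    (LinearEquiv.isWeaklyRegular_congr
      (TensorProduct.rid (MvPowerSeries (Fin r) 𝒪) (Fin L.d → MvPowerSeries (Fin r) 𝒪)) _).mp
      (h.isWeaklyRegular_lTensor (M₂ := Fin L.d → MvPowerSeries (Fin r) 𝒪))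
  refine ((coordEquiv L).isWeaklyRegular_congr ?_).mp h2
  exact List.forall₂_map_right_iff.mpr <| List.forall₂_same.mpr fun f _ c => coordMap_smul L f c

lemma finite_N : Module.Finite (MvPowerSeries (Fin r) 𝒪) L.N := by
  refine Module.Finite.of_surjective
    (Fintype.linearCombination (MvPowerSeries (Fin r) 𝒪) L.b) ?_
  intro x
  obtain ⟨c, hc⟩ := L.b_span x
  exact ⟨fun i => L.φ (c i), by rw [hc, Fintype.linearCombination_apply]⟩

end

theorem result
    {𝒪 : Type} [CommRing 𝒪] [IsDomain 𝒪] [IsDiscreteValuationRing 𝒪]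
    {r : ℕ} {R : Type} [CommRing R] [Algebra 𝒪 R]
    {M : Type} [AddCommGroup M] [Module R M] [Nontrivial M]
    (L : Algebra.PatchingLevel 𝒪 r R M ⊥) :
    Module.Free R M ∧ Module.annihilator R M = ⊥ ∧
      RingHom.ker L.ψ = Ideal.span (Set.range fun i : Fin r => L.φ (MvPowerSeries.X i)) := by
  obtain ⟨ϖ, hϖ⟩ := IsDiscreteValuationRing.exists_irreducible 𝒪
  have hmax : maximalIdeal 𝒪 = Ideal.span {ϖ} := hϖ.maximalIdeal_eq
  have hϖ0 : ϖ ≠ 0 := hϖ.ne_zero
  have hR : Nontrivial R := Module.nontrivial R M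
  have hNnt : Nontrivial L.N := L.π_surjective.nontrivial
  have hfin : Module.Finite (MvPowerSeries (Fin r) 𝒪) L.N := finite_N L
  -- the images of the parameters lie in the maximal ideal
  have hys : ∀ y ∈ (paramList r ϖ).map L.φ, y ∈ maximalIdeal (MvPowerSeries (Fin r) 𝒪) := by
    intro y hy
    obtain ⟨x, hx, rfl⟩ := List.mem_map.mp hy
    rw [paramList, List.mem_append, List.mem_map, List.mem_singleton] at hx
    rcases hx with ⟨i, -, rfl⟩ | rfl
    · rw [mem_maximalIdeal, mem_nonunits_iff]
      intro hu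
      have h0 := hu.map L.ψ
      rw [L.ψ_φ_X i] at h0
      exact not_isUnit_zero h0
    · have hC : L.φ (C ϖ) = C ϖ := by
        rw [c_eq_algebraMap, AlgHom.commutes]
      rw [hC, ← ofList_paramList r hmax]
      exact Ideal.subset_span (by simp [paramList])
  have hfree : Module.Free (MvPowerSeries (Fin r) 𝒪) L.N :=
    free_of_isWeaklyRegular (r + 1) (MvPowerSeries (Fin r) 𝒪) (paramList r ϖ)
      (by simp [paramList]) (isWeaklyRegular_paramList r hϖ0) (ofList_paramList r hmax) L.N
      ((paramList r ϖ).map L.φ) hys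
      (isWeaklyRegular_map_φ L _ (isWeaklyRegular_paramList r hϖ0)) (by simp [paramList])
  -- a basis of `N`
  let bN := Module.Free.chooseBasis (MvPowerSeries (Fin r) 𝒪) L.N
  have hne : Nonempty (Module.Free.ChooseBasisIndex (MvPowerSeries (Fin r) 𝒪) L.N) :=
    bN.index_nonempty
  set I : Ideal (MvPowerSeries (Fin r) 𝒪) :=
    Ideal.span (Set.range fun i : Fin r => L.φ (MvPowerSeries.X i)) with hI
  have hIker : I ≤ RingHom.ker L.ψ := by
    rw [hI, Ideal.span_le]
    rintro _ ⟨i, rfl⟩
    exact L.ψ_φ_X i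
  -- coordinates of elements of the kernel of `π` lie in `I`
  have hK : ∀ x : L.N, L.π x = 0 → ∀ i, bN.repr x i ∈ I := by
    intro x hx i
    have hx' := (L.ker_π x).mp hx
    rw [← bN.span_eq, Submodule.mem_ideal_smul_span_iff_exists_sum] at hx'
    obtain ⟨a, ha, rfl⟩ := hx'
    have : (a.sum fun i c => c • bN i) = Finsupp.linearCombination _ bN a := by
      rw [Finsupp.linearCombination_apply]
    rw [this, bN.repr_linearCombination]
    exact ha i
  have hπsum : ∀ f : Module.Free.ChooseBasisIndex (MvPowerSeries (Fin r) 𝒪) L.N →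
      MvPowerSeries (Fin r) 𝒪, L.π (∑ i, f i • bN i) = ∑ i, L.ψ (f i) • L.π (bN i) := by
    intro f
    rw [map_sum]
    exact Finset.sum_congr rfl fun i _ => L.π_smul _ _
  have hker : RingHom.ker L.ψ = I := by
    apply le_antisymm _ hIker
    intro f hf
    obtain ⟨i0⟩ := hne
    have h1 : L.π (f • bN i0) = 0 := by
      rw [L.π_smul, (RingHom.mem_ker).mp hf, zero_smul]
    have h2 := hK _ h1 i0
    simpa using h2
  have hli : LinearIndependent R (fun i => L.π (bN i)) := by
    rw [Fintype.linearIndependent_iff]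
    intro g hg i
    choose f hf using fun i => L.ψ_surjective (g i)
    have h1 : L.π (∑ i, f i • bN i) = 0 := by
      rw [hπsum, ← hg]
      exact Finset.sum_congr rfl fun i _ => by rw [hf]
    have h2 := hK _ h1 i
    rw [bN.repr_sum_self] at h2
    rw [← hf i]
    exact hIker h2
  have hsp : ⊤ ≤ Submodule.span R (Set.range fun i => L.π (bN i)) := by
    intro m _
    obtain ⟨x, rfl⟩ := L.π_surjective m
    rw [← bN.sum_repr x, hπsum]
    exact Submodule.sum_mem _ fun i _ =>
      Submodule.smul_mem _ _ (Submodule.subset_span ⟨i, rfl⟩)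
  have hfreeM : Module.Free R M := Module.Free.of_basis (Module.Basis.mk hli hsp)
  exact ⟨hfreeM, Module.annihilator_eq_bot.mpr inferInstance, hker⟩

end Fermat.Agent.S57
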